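/-
The two pushforwards `J₀(N q) → J₀(N)` on torsion commute with the good Hecke operators.
-/
import Fermat.Agent.GaloisReps.TateConstructTorsion
import Fermat.Agent.Congruence.Torsion
import Fermat.Agent.Carayol.Pushforward
import Fermat.Agent.Galois.Places
import Mathlib.Algebra.MvPolynomial.Eval

set_option autoImplicit false

noncomputable section

open ModularCurve AlgebraicCurve
open scoped Matrix
open FLTA.GaloisReps
open FLTA.Gamma0 (homRank)
open FLTA.Kummer (JTors)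

namespace FLTA.BadRed

local notation "Qb" => AlgebraicClosure ℚ

variable (N q : ℕ) [NeZero N] [NeZero q]

variable {N q}

/-- A Galois equivariant map between Jacobians commutes with the good Hecke operators on torsion,
by the Eichler-Shimura relation. -/
theorem hecke_comm_of_galois {M : ℕ} [NeZero M] (P : JZero M →+ JZero N)
    (hP : ∀ (σ : GalQ) (x : JZero M), P (σ • x) = σ • P x) {ℓ : ℕ} (hℓ : ℓ.Prime)
    (hℓM : ¬ ℓ ∣ M) (hℓN : ¬ ℓ ∣ N) {m : ℕ} (hm : ¬ ℓ ∣ m) {x : JZero M} (hx : m • x = 0) :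
    P (heckeOperatorBar M ⟨ℓ, hℓ⟩ x) = heckeOperatorBar N ⟨ℓ, hℓ⟩ (P x) := by
  obtain ⟨A, hA⟩ := FLTA.Galois.exists_liesOverPrime hℓ
  obtain ⟨σ, hσ⟩ := FLTA.Galois.exists_isFrobeniusAt hℓ hA
  set y := σ⁻¹ • x with hy
  have hσy : σ • y = x := smul_inv_smul σ x
  have hmy : m • y = 0 := by rw [hy, smul_comm, hx]; exact smul_zero (A := JZero M) σ⁻¹
  have h1 := congrArg P (FLTA.Congruence.frobenius_quadratic_torsion hℓ hℓM hA hm hσ hmy)
  have h2 := FLTA.Congruence.frobenius_quadratic_torsion hℓ hℓN hA hm hσ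
    (x := P y) (by rw [← map_nsmul, hmy, map_zero])
  rw [map_add, map_sub, map_zsmul, map_zero, hP, hP, hσy] at h1
  have h3 := sub_right_injective (add_right_cancel (h1.trans h2.symm))
  rwa [← hP σ y, hσy] at h3

variable (S : Finset ℕ) (N q)

/-- The primes away from `N q` and `S`. -/
abbrev GoodPrime : Type := {ℓ : Nat.Primes // ¬ (ℓ : ℕ) ∣ N * q ∧ (ℓ : ℕ) ∉ S}

/-- Evaluation of a polynomial in the good Hecke operators at level `N`. -/
def evalLow : MvPolynomial (GoodPrime N q S) ℤ →+* FullHecke N :=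
  MvPolynomial.eval₂Hom (Int.castRingHom _) fun ℓ =>
    CuspForm.heckeAlgebra.T ℓ.1.2 (fun h => ℓ.2.1 (h.mul_right q))
      (Set.notMem_empty (ℓ.1 : ℕ))

/-- Evaluation of a polynomial in the good Hecke operators at level `N q`. -/
def evalHigh : MvPolynomial (GoodPrime N q S) ℤ →+* FullHecke (N * q) :=
  MvPolynomial.eval₂Hom (Int.castRingHom _) fun ℓ =>
    CuspForm.heckeAlgebra.T ℓ.1.2 ℓ.2.1 (Set.notMem_empty (ℓ.1 : ℕ))

variable (p : ℕ) [Fact p.Prime]

local instance instNeZeroPow (k : ℕ) : NeZero (p ^ k) :=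
  ⟨pow_ne_zero _ (Fact.out (p := p.Prime)).ne_zero⟩

/-- An equivariant map restricted to torsion. -/
def onTors {M : ℕ} [NeZero M] (P : JZero M →+ JZero N) (n : ℕ) [NeZero n] :
    JTors M n →+ JTors N n where
  toFun x := ⟨P x.1, by
    rw [Pic0.mem_torsion, ← map_zsmul, Pic0.mem_torsion.mp x.2, map_zero]⟩
  map_zero' := Subtype.ext (map_zero P)
  map_add' x y := Subtype.ext (map_add P x.1 y.1)

variable {N q} {p} {S}

/-- A Galois equivariant map intertwines the two evaluations on coordinates. -/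
theorem torsCoord_eval (P : JZero (N * q) →+ JZero N)
    (hP : ∀ (σ : GalQ) (x : JZero (N * q)), P (σ • x) = σ • P x) (hpS : p ∈ S) (k : ℕ)
    (h : MvPolynomial (GoodPrime N q S) ℤ) :
    ∀ x y : JTors (N * q) (p ^ k),
      (heckeMat (N * q) (evalHigh N q S h)).map (Int.cast : ℤ → ZMod (p ^ k)) *ᵥ
          torsCoord (N * q) (p ^ k) x = torsCoord (N * q) (p ^ k) y →
      (heckeMat N (evalLow N q S h)).map (Int.cast : ℤ → ZMod (p ^ k)) *ᵥ
          torsCoord N (p ^ k) (onTors N P (p ^ k) x) =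
        torsCoord N (p ^ k) (onTors N P (p ^ k) y) := by
  have e : ∀ (r : ℕ) (A : Matrix (Fin r) (Fin r) ℤ),
      A.map (Int.cast : ℤ → ZMod (p ^ k)) = (Int.castRingHom (ZMod (p ^ k))).mapMatrix A :=
    fun _ _ => rfl
  induction h using MvPolynomial.induction_on with
  | C c =>
    intro x y hxy
    simp only [evalHigh, evalLow, eq_intCast, map_intCast, e, Matrix.intCast_mulVec]
      at hxy ⊢
    rw [Int.cast_smul_eq_zsmul, ← map_zsmul] at hxy ⊢
    rw [← (torsCoord (N * q) (p ^ k)).injective hxy, map_zsmul (onTors N P (p ^ k)), map_zsmul]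
  | add f g hf hg =>
    intro x y hxy
    simp only [map_add, e, Matrix.add_mulVec] at hxy ⊢
    obtain ⟨u, hu⟩ := (torsCoord (N * q) (p ^ k)).surjective
      ((Int.castRingHom (ZMod (p ^ k))).mapMatrix (heckeMat (N * q) (evalHigh N q S f)) *ᵥ
        torsCoord (N * q) (p ^ k) x)
    obtain ⟨v, hv⟩ := (torsCoord (N * q) (p ^ k)).surjective
      ((Int.castRingHom (ZMod (p ^ k))).mapMatrix (heckeMat (N * q) (evalHigh N q S g)) *ᵥ
        torsCoord (N * q) (p ^ k) x)
    rw [← hu, ← hv, ← map_add] at hxy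
    rw [← e, ← e, hf x u hu.symm, hg x v hv.symm, ← map_add, ← map_add,
      (torsCoord (N * q) (p ^ k)).injective hxy]
  | mul_X f ℓ hf =>
    intro x y hxy
    have hℓN : ¬ (ℓ.1 : ℕ) ∣ N := fun h => ℓ.2.1 (h.mul_right q)
    have hT : ∀ (M : ℕ) [NeZero M] (hℓM : ¬ (ℓ.1 : ℕ) ∣ M) (z : JTors M (p ^ k)),
        (heckeMat M (CuspForm.heckeAlgebra.T ℓ.1.2 hℓM (Set.notMem_empty (ℓ.1 : ℕ)))).map
            (Int.cast : ℤ → ZMod (p ^ k)) *ᵥ torsCoord M (p ^ k) z =
          torsCoord M (p ^ k) ⟨heckeOperatorBar M ℓ.1 (z : JZero M),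
            hecke_mem_torsion M (p ^ k) ℓ.1 z⟩ := fun M _ hℓM z =>
      latMat_mulVec_torsCoord M (p ^ k) ℓ.1 (heckeQuot_T_comp ℓ.1.2 hℓM) z
    simp only [evalHigh, evalLow, map_mul, MvPolynomial.eval₂Hom_X', e] at hxy ⊢
    rw [← Matrix.mulVec_mulVec, ← e, ← e, hT _ ℓ.2.1] at hxy
    have h2 := hf _ y hxy
    rw [← Matrix.mulVec_mulVec, ← e, ← e, hT _ hℓN]
    refine Eq.trans ?_ h2
    congr 2
    apply Subtype.ext
    exact (hecke_comm_of_galois P hP ℓ.1.2 ℓ.2.1 hℓN
      (fun h => ℓ.2.2 (((Nat.prime_dvd_prime_iff_eq ℓ.1.2 (Fact.out (p := p.Prime))).mp (ℓ.1.2.dvd_of_dvd_pow h)).symm ▸ hpS))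
      (nsmul_eq_zero_of_mem x.2)).symm
where
  nsmul_eq_zero_of_mem {M n : ℕ} [NeZero M] {x : JZero M}
      (hx : x ∈ Pic0.torsion Qb (modularFunctionFieldBar M) n) : n • x = 0 := by
    rw [← natCast_zsmul]; exact Pic0.mem_torsion.mp hx

/-- A good Hecke polynomial vanishing at level `N` lands in the common kernel of both
pushforwards. -/
theorem push_eq_zero {h : MvPolynomial (GoodPrime N q S) ℤ} (hh : evalLow N q S h = 0)
    (hpS : p ∈ S) {k : ℕ} {x y : JTors (N * q) (p ^ k)}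
    (hxy : (heckeMat (N * q) (evalHigh N q S h)).map (Int.cast : ℤ → ZMod (p ^ k)) *ᵥ
      torsCoord (N * q) (p ^ k) x = torsCoord (N * q) (p ^ k) y) :
    Carayol.pushAlpha N q (y : JZero (N * q)) = 0 ∧
      Carayol.pushBeta N q (y : JZero (N * q)) = 0 := by
  have key : ∀ P : JZero (N * q) →+ JZero N,
      (∀ (σ : GalQ) (x : JZero (N * q)), P (σ • x) = σ • P x) → P (y : JZero (N * q)) = 0 := by
    intro P hP
    have h1 := torsCoord_eval P hP hpS k h x y hxy
    rw [hh, map_zero, Matrix.map_zero _ Int.cast_zero, Matrix.zero_mulVec, eq_comm,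
      map_eq_zero_iff _ (torsCoord N (p ^ k)).injective] at h1
    exact congrArg Subtype.val h1
  exact ⟨key _ (Carayol.pushAlpha_galois N q), key _ (Carayol.pushBeta_galois N q)⟩

end FLTA.BadRed

end
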