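/-
Eigensystems of lower level inside the good Hecke algebra, and their separation from a newform.
-/
import Fermat.Agent.BadRed.Endgame.Degeneracy
import Fermat.Agent.GaloisReps.Attach
import Fermat.Agent.GaloisReps.EigenChar
import Fermat.Agent.RepTheory.DVRExtension
import Fermat.Agent.Periods.Eigen
import Fermat.Agent.Carayol.MatchCompare
import Fermat.Prelude.Def_CuspForm_Newforms
import Mathlib.RingTheory.TensorProduct.Finite

set_option autoImplicit false

noncomputable section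

open Polynomial ModularFormClass CongruenceSubgroup
open scoped TensorProduct
open FLTA.GaloisReps

namespace FLTA.BadRed

/-- Every character of the full Hecke algebra comes from a normalised eigenform. -/
theorem exists_normalized_of_char {N : ℕ} [NeZero N] (c : FullHecke N →+* ℂ) :
    ∃ f : CuspForm (Gamma0 N) 2, f.IsNormalizedEigenform ∧
      ∀ (ℓ : ℕ) (hℓ : ℓ.Prime) (hℓN : ¬ ℓ ∣ N),
        qCoeff f ℓ = c (CuspForm.heckeAlgebra.T hℓ hℓN (Set.notMem_empty ℓ)) := by
  obtain ⟨f, hf, h1⟩ := FLTA.Periods.exists_mem_formEigen_qCoeff_one N c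
  have hf0 : f ≠ 0 := by
    intro h0
    rw [h0, ← FLTA.Periods.coeffLin_apply, map_zero] at h1
    exact zero_ne_one h1
  let a : ℕ → ℂ := fun p => if hp : p.Prime then
    if hN : p ∣ N then c (CuspForm.heckeAlgebra.U hp hN (Set.notMem_empty p))
    else c (CuspForm.heckeAlgebra.T hp hN (Set.notMem_empty p)) else 0
  obtain ⟨b, -, hb, hbp⟩ := FLTA.Hecke.exists_normalized_of_eigenvector hf0 (c := a)
    (fun p hp hpN => by
      simp only [a, dif_pos hp, dif_neg hpN]
      exact hf (CuspForm.heckeAlgebra.T hp hpN (Set.notMem_empty p)))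
    (fun p hp hpN => by
      simp only [a, dif_pos hp, dif_pos hpN]
      exact hf (CuspForm.heckeAlgebra.U hp hpN (Set.notMem_empty p)))
  refine ⟨_, hb, fun ℓ hℓ hℓN => ?_⟩
  rw [hbp ℓ hℓ]
  simp only [a, dif_pos hℓ, dif_neg hℓN]

/-- Characters of a subring of a `ℤ`-finite ring extend, over `ℂ`. -/
theorem exists_extend_char {A B : Type} [CommRing A] [CommRing B] [Module.Finite ℤ B]
    (i : A →+* B) (hi : Function.Injective i) (c : A →+* ℂ) :
    ∃ c' : B →+* ℂ, c'.comp i = c := by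
  algebraize [i]
  have : Module.Finite A B := Module.Finite.of_restrictScalars_finite ℤ A B
  have : (RingHom.ker c).IsPrime := RingHom.ker_isPrime c
  obtain ⟨P, -, hP, hPc⟩ := Ideal.exists_ideal_over_prime_of_isIntegral (RingHom.ker c)
    (⊥ : Ideal B) (by
      intro x hx
      rw [Ideal.mem_comap, Ideal.mem_bot] at hx
      have : x = 0 := hi (by rw [map_zero]; exact hx)
      simp [this])
  have hPc' : P.comap i = RingHom.ker c := hPc
  let cbar : A ⧸ P.comap i →+* ℂ := Ideal.Quotient.lift _ c fun a ha => by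
    rw [hPc'] at ha
    exact ha
  have hcinj : Function.Injective cbar := RingHom.lift_injective_of_ker_le_ideal _ _ hPc'.ge
  obtain ⟨g, hg⟩ := FLTA.RepTheory.exists_extend_of_integral (Ideal.quotientMap P i le_rfl)
    Ideal.quotientMap_injective
    (RingHom.IsIntegral.quotient i (algebraMap_isIntegral_iff.mpr
      (inferInstance : Algebra.IsIntegral A B))) cbar hcinj
  exact ⟨g.comp (Ideal.Quotient.mk P),
    RingHom.ext fun a => RingHom.congr_fun hg (Ideal.Quotient.mk _ a)⟩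

/-- Two eigensystems which agree at almost all primes agree at every prime away from the
levels. -/
theorem char_T_eq_of_cofinite {M N : ℕ} [NeZero M] [NeZero N] (c₁ : FullHecke M →+* ℂ)
    (c₂ : FullHecke N →+* ℂ) (S : Finset ℕ)
    (h : ∀ (ℓ : ℕ) (hℓ : ℓ.Prime) (hℓM : ¬ ℓ ∣ M) (hℓN : ¬ ℓ ∣ N), ℓ ∉ S →
      c₁ (CuspForm.heckeAlgebra.T hℓ hℓM (Set.notMem_empty ℓ)) =
        c₂ (CuspForm.heckeAlgebra.T hℓ hℓN (Set.notMem_empty ℓ)))
    {ℓ : ℕ} (hℓ : ℓ.Prime) (hℓM : ¬ ℓ ∣ M) (hℓN : ¬ ℓ ∣ N) :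
    c₁ (CuspForm.heckeAlgebra.T hℓ hℓM (Set.notMem_empty ℓ)) =
      c₂ (CuspForm.heckeAlgebra.T hℓ hℓN (Set.notMem_empty ℓ)) := by
  classical
  have := module_finite_fullHecke M
  have := module_finite_fullHecke N
  obtain ⟨lam, hlam, hlamℓ⟩ : ∃ lam : ℕ, lam.Prime ∧ ℓ ≠ lam := by
    rcases eq_or_ne ℓ 2 with rfl | h2
    · exact ⟨3, Nat.prime_three, by decide⟩
    · exact ⟨2, Nat.prime_two, h2⟩
  have : Fact lam.Prime := ⟨hlam⟩
  have := FLTA.RepTheory.finite_residueField_padicInt lam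
  let φ : FullHecke M ⊗[ℤ] FullHecke N →ₐ[ℤ] ℂ :=
    Algebra.TensorProduct.lift c₁.toIntAlgHom c₂.toIntAlgHom fun _ _ => Commute.all _ _
  have : Module.Finite ℤ φ.range :=
    Module.Finite.of_surjective φ.rangeRestrict.toLinearMap φ.rangeRestrict_surjective
  obtain ⟨E, ψ, -⟩ := FLTA.RepTheory.exists_ext_character ℤ_[lam] (Int.castRingHom φ.range)
    (fun a b hab => Int.cast_injective (α := ℂ) (by simpa using congrArg Subtype.val hab))
    (Int.castRingHom ℤ_[lam])
  have hψ : Function.Injective ψ := by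
    rw [RingHom.injective_iff_ker_eq_bot]
    refine Ideal.eq_bot_of_comap_eq_bot (R := ℤ) ?_
    rw [eq_bot_iff]
    intro m hm
    rw [Ideal.mem_comap, RingHom.mem_ker, eq_intCast, map_intCast] at hm
    exact Int.cast_eq_zero.mp hm
  have hp : (lam : E.R) ∈ IsLocalRing.maximalIdeal E.R := by
    rw [← map_natCast (algebraMap ℤ_[lam] E.R)]
    exact map_nonunit _ _ (by
      rw [PadicInt.maximalIdeal_eq_span_p]
      exact Ideal.mem_span_singleton_self _)
  let ψ₁ : FullHecke M →+* E.R := (ψ.comp φ.rangeRestrict.toRingHom).comp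
    Algebra.TensorProduct.includeLeftRingHom
  let ψ₂ : FullHecke N →+* E.R := (ψ.comp φ.rangeRestrict.toRingHom).comp
    (Algebra.TensorProduct.includeRight :
      FullHecke N →ₐ[ℤ] FullHecke M ⊗[ℤ] FullHecke N).toRingHom
  have key : ∀ t u, ψ₁ t = ψ₂ u ↔ c₁ t = c₂ u := fun t u => by
    refine hψ.eq_iff.trans (Subtype.ext_iff.trans ?_)
    simp [φ]
  obtain ⟨ρ₁, hcp₁, -, -⟩ := exists_galoisRepAdic_attached hp ψ₁
  obtain ⟨ρ₂, hcp₂, -, -⟩ := exists_galoisRepAdic_attached hp ψ₂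
  obtain ⟨A, hA⟩ := FLTA.Galois.exists_liesOverPrime hℓ
  obtain ⟨σ, hσ⟩ := FLTA.Galois.exists_isFrobeniusAt hℓ hA
  have hchar := FLTA.Carayol.adic_charpoly_eq_of_frobenius ρ₁ ρ₂
    (S ∪ M.primeFactors ∪ N.primeFactors ∪ {lam})
    (fun p hp' hpS P hP τ hτ => by
      simp only [Finset.mem_union, Nat.mem_primeFactors, Finset.mem_singleton, not_or, not_and,
        not_not] at hpS
      have hpM : ¬ p ∣ M := fun hd => NeZero.ne M (hpS.1.1.2 hp' hd)
      have hpN : ¬ p ∣ N := fun hd => NeZero.ne N (hpS.1.2 hp' hd)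
      rw [hcp₁ p hp' hpM hpS.2 P hP τ hτ, hcp₂ p hp' hpN hpS.2 P hP τ hτ,
        (key _ _).mpr (h p hp' hpM hpN hpS.1.1.1)]) σ
  rw [hcp₁ ℓ hℓ hℓM hlamℓ A hA σ hσ, hcp₂ ℓ hℓ hℓN hlamℓ A hA σ hσ] at hchar
  have h1 := congrArg (fun P : E.R[X] => P.coeff 1) hchar
  simp at h1
  exact (key _ _).mp h1

/-- A newform of level `N q` is separated from level `N` by a good Hecke polynomial. -/
theorem exists_poly_separating {N q : ℕ} [NeZero N] [NeZero q]
    {g : CuspForm (Gamma0 (N * q)) 2} (hg : g.IsNewform) (hne : N ≠ N * q) (S : Finset ℕ) :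
    ∃ h : MvPolynomial (GoodPrime N q S) ℤ,
      evalLow N q S h = 0 ∧ eigenCharC (S := (∅ : Set ℕ)) hg.1 (evalHigh N q S h) ≠ 0 := by
  have := module_finite_fullHecke N
  by_contra hc
  simp only [not_exists, not_and, not_not] at hc
  let cg : MvPolynomial (GoodPrime N q S) ℤ →+* ℂ :=
    (eigenCharC (S := (∅ : Set ℕ)) hg.1).comp (evalHigh N q S)
  let c : (evalLow N q S).range →+* ℂ :=
    (evalLow N q S).rangeRestrict.liftOfSurjective (RingHom.rangeRestrict_surjective _)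
      ⟨cg, fun h hh => hc h (congrArg Subtype.val hh)⟩
  obtain ⟨c', hc'⟩ := exists_extend_char (evalLow N q S).range.subtype Subtype.val_injective c
  have hgood : ∀ h, c' (evalLow N q S h) = cg h := fun h =>
    (RingHom.congr_fun hc' ((evalLow N q S).rangeRestrict h)).trans
      (RingHom.liftOfRightInverse_comp_apply _ _ _ _ h)
  obtain ⟨f, hf, hfℓ⟩ := exists_normalized_of_char c'
  refine hg.2 N (dvd_mul_right N q) hne ⟨f, hf, fun ℓ hℓ hℓM => ?_⟩
  have hℓN : ¬ ℓ ∣ N := fun h => hℓM (h.mul_right q)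
  rw [hfℓ ℓ hℓ hℓN, ← eigenCharC_T (S := (∅ : Set ℕ)) hg.1 hℓ hℓM (Set.notMem_empty ℓ)]
  refine char_T_eq_of_cofinite c' (eigenCharC (S := (∅ : Set ℕ)) hg.1) S
    (fun p hp hpN hpM hpS => ?_) hℓ hℓN hℓM
  have := hgood (MvPolynomial.X ⟨⟨p, hp⟩, hpM, hpS⟩)
  simpa [cg, evalLow, evalHigh] using this

end FLTA.BadRed

end
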