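/-
From unipotence of inertia on the Tate module to unipotence on the datum.
-/
import Fermat.Agent.HeckeDatum.Transfer
import Fermat.Prelude.Def_GaloisRep_LocalConditions
import Mathlib.LinearAlgebra.Matrix.Charpoly.Coeff

set_option autoImplicit false

noncomputable section

open Polynomial

namespace FLTA.BadRed

/-- The characteristic polynomial in rank two. -/
theorem charpoly_eq_of_finrank_two {R V : Type*} [CommRing R] [Nontrivial R] [AddCommGroup V]
    [Module R V] [Module.Free R V] [Module.Finite R V] (h : Module.finrank R V = 2)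
    (f : Module.End R V) :
    LinearMap.charpoly f = X ^ 2 - C (LinearMap.trace R V f) * X + C (LinearMap.det f) := by
  let b := Module.finBasisOfFinrankEq R V h
  rw [← LinearMap.charpoly_toMatrix f b, LinearMap.trace_eq_matrix_trace R b,
    ← LinearMap.det_toMatrix b, Matrix.charpoly_fin_two]

/-- An invertible endomorphism of a plane with determinant one and `(f - 1) ^ 2 = 0` has
characteristic polynomial `(X - 1) ^ 2`. -/
theorem charpoly_eq_sub_one_sq {R V : Type*} [CommRing R] [Nontrivial R] [AddCommGroup V]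
    [Module R V] [Module.Free R V] [Module.Finite R V] (h : Module.finrank R V = 2)
    (f f' : Module.End R V) (hff' : f * f' = 1) (hdet : LinearMap.det f = 1)
    (hf : (f - 1) * (f - 1) = 0) : LinearMap.charpoly f = (X - 1) ^ 2 := by
  have hcp := charpoly_eq_of_finrank_two h f
  rw [hdet] at hcp
  have hCH := LinearMap.aeval_self_charpoly f
  rw [hcp] at hCH
  simp only [map_add, map_sub, map_mul, map_pow, aeval_X, aeval_C, map_one] at hCH
  set t := LinearMap.trace R V f with ht
  have h2 : (algebraMap R (Module.End R V) (t - 2)) * f = 0 := by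
    rw [map_sub, map_ofNat, sub_mul, two_mul]
    calc algebraMap R (Module.End R V) t * f - (f + f)
        = (f - 1) * (f - 1) - (f ^ 2 - algebraMap R (Module.End R V) t * f + 1) := by
          noncomm_ring
      _ = 0 := by rw [hf, hCH, sub_zero]
  have h3 : algebraMap R (Module.End R V) (t - 2) = 0 := by
    rw [← mul_one (algebraMap R (Module.End R V) (t - 2)), ← hff', ← mul_assoc, h2, zero_mul]
  have ht2 : t = 2 := by
    let b := Module.finBasisOfFinrankEq R V h
    have h4 := congrArg (fun g : Module.End R V => b.repr (g (b 0)) 0) h3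
    simpa [Module.algebraMap_end_apply, sub_eq_zero] using h4
  rw [hcp, ht2, map_one, map_ofNat]
  ring

open FLTA.GaloisReps FLTA.HeckeDatum

variable {p : ℕ} [Fact p.Prime] {N : ℕ} [NeZero N] {S : Finset ℕ}
  {𝒪 : Type} [CommRing 𝒪] [IsDomain 𝒪] [IsDiscreteValuationRing 𝒪]
  [IsAdicComplete (IsLocalRing.maximalIdeal 𝒪) 𝒪] [Finite (IsLocalRing.ResidueField 𝒪)]
  [CharZero 𝒪]
  {θ : CuspForm.heckeAlgebra N 2 (↑S : Set ℕ) →+* IsLocalRing.ResidueField 𝒪}
  {T : Type} [CommRing T] [IsLocalRing T] [IsNoetherianRing T]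
  [IsAdicComplete (IsLocalRing.maximalIdeal T) T] [Algebra 𝒪 T] [IsLocalHom (algebraMap 𝒪 T)]
  [Module.Finite 𝒪 T] [Module.Free 𝒪 T]

omit [Finite (IsLocalRing.ResidueField 𝒪)] [CharZero 𝒪] in
/-- A relation among the Galois matrices on the Tate module holds on the datum. -/
theorem isUnipotentOnInertiaAt_of_tateData (D : TateData N p)
    (hp𝒪 : (p : 𝒪) ∈ IsLocalRing.maximalIdeal 𝒪) (hpS : p ∈ S)
    (hNS : ∀ q : ℕ, q.Prime → q ∣ N → q ∈ S)
    (H : CuspForm.HeckeGaloisRepDatum N (↑S : Set ℕ) 𝒪 θ T) {q : ℕ} (hq : q.Prime) (hqp : q ≠ p)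
    (hD : ∀ A : ValuationSubring (AlgebraicClosure ℚ), A.LiesOverPrime q →
      ∀ σ ∈ A.inertiaSubgroupIn ℚ, (D.rho σ - 1) * (D.rho σ - 1) = 0) :
    H.ρ.IsUnipotentOnInertiaAt q := by
  intro P hP σ hσ
  refine charpoly_eq_sub_one_sq H.ρ.finrank_eq _ (H.ρ.ρ σ⁻¹)
    (by rw [← map_mul, mul_inv_cancel, map_one])
    (det_eq_one_of_mem_inertia Fact.out hp𝒪 hpS hNS H hq hqp P hP σ hσ) ?_
  have h := transfer_relation D hp𝒪 hpS hNS H (Finset.univ : Finset (Fin 4))
    ![1, -1, -1, 1] ![σ * σ, σ, σ, 1] (by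
      rw [Fin.sum_univ_four, ← hD P hP σ hσ]
      have e : ∀ M : Matrix (Fin D.r) (Fin D.r) ℤ, M.map (Int.cast : ℤ → ℤ_[p]) =
          (Int.castRingHom ℤ_[p]).mapMatrix M := fun M => rfl
      simp only [Matrix.cons_val_zero, Matrix.cons_val_one, Matrix.cons_val_two,
        Matrix.cons_val_three, Matrix.head_cons, Matrix.tail_cons, e, map_one, map_neg, map_mul,
        one_mul, neg_one_mul]
      noncomm_ring)
  rw [Fin.sum_univ_four] at h
  simp only [Matrix.cons_val_zero, Matrix.cons_val_one, Matrix.cons_val_two,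
    Matrix.cons_val_three, Matrix.head_cons, Matrix.tail_cons, map_one, map_neg, map_mul,
    one_smul, neg_smul] at h
  calc (H.ρ.ρ σ - 1) * (H.ρ.ρ σ - 1) = H.ρ.ρ σ * H.ρ.ρ σ + -H.ρ.ρ σ + -H.ρ.ρ σ + 1 := by
        noncomm_ring
    _ = 0 := h

end FLTA.BadRed

end
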