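/-
Frobenius at a prime exactly dividing the level, on the eigenplane of a character new at it.
-/
import Fermat.Agent.BadRed.Galois
import Fermat.Agent.BadRed.Endgame.Degeneracy
import Fermat.Agent.BadRed.Endgame.Unipotent
import Fermat.Agent.BadRed.Endgame.Eigenform
import Fermat.Agent.GaloisReps.Attach

set_option autoImplicit false

noncomputable section

open ModularCurve AlgebraicCurve Polynomial
open scoped Matrix
open FLTA.GaloisReps
open FLTA.Gamma0 (homRank)
open FLTA.Kummer (JTors)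

namespace FLTA.BadRed

section Algebra

/-- An invertible endomorphism of a plane of determinant `q` annihilated by
`(X² - q²)(X² - 1)` has trace `± (q + 1)`. -/
theorem charpoly_eq_or {R V : Type*} [CommRing R] [IsDomain R] [AddCommGroup V] [Module R V]
    [Module.Free R V] [Module.Finite R V] (h : Module.finrank R V = 2) (f f' : Module.End R V)
    (hff' : f * f' = 1) (q : ℕ) (hdet : LinearMap.det f = (q : R))
    (hf : (f * f - (q : Module.End R V) ^ 2) * (f * f - 1) = 0) :
    LinearMap.charpoly f = X ^ 2 - C ((q : R) + 1) * X + C (q : R) ∨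
      LinearMap.charpoly f = X ^ 2 + C ((q : R) + 1) * X + C (q : R) := by
  have hcp := charpoly_eq_of_finrank_two h f
  rw [hdet] at hcp
  set t := LinearMap.trace R V f with ht
  set c : R := t ^ 2 - ((q : R) + 1) ^ 2 with hc
  have hquartic : (X ^ 2 - C ((q : R) ^ 2)) * (X ^ 2 - 1) =
      LinearMap.charpoly f * (X ^ 2 + C t * X + C (q : R)) + C c * X ^ 2 := by
    rw [hcp, hc]
    simp only [map_sub, map_pow, map_add, map_one]
    ring
  have h0 := congrArg (aeval f) hquartic
  simp only [map_mul, map_add, map_sub, map_pow, map_one, aeval_X, aeval_C,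
    LinearMap.aeval_self_charpoly, zero_mul, zero_add, map_natCast] at h0
  have h1 : algebraMap R (Module.End R V) c * (f * f) = 0 := by
    rw [← pow_two f, ← h0, pow_two f]
    exact hf
  have h2 : algebraMap R (Module.End R V) c = 0 := by
    calc algebraMap R (Module.End R V) c
        = algebraMap R (Module.End R V) c * (f * (f * f') * f') := by
          rw [hff', mul_one, hff', mul_one]
      _ = algebraMap R (Module.End R V) c * (f * f) * (f' * f') := by simp only [mul_assoc]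
      _ = 0 := by rw [h1, zero_mul]
  have h3 : c = 0 := by
    let b := Module.finBasisOfFinrankEq R V h
    have h4 := congrArg (fun g : Module.End R V => b.repr (g (b 0)) 0) h2
    simpa [Module.algebraMap_end_apply] using h4
  rcases eq_or_eq_neg_of_sq_eq_sq t ((q : R) + 1) (sub_eq_zero.mp h3) with ht' | ht'
  · exact Or.inl (by rw [hcp, ht'])
  · exact Or.inr (by rw [hcp, ht', map_neg, neg_mul, sub_neg_eq_add])

end Algebra

section Relation

variable {N q p : ℕ} [NeZero N] [NeZero q] [Fact q.Prime] [Fact p.Prime] {S : Finset ℕ}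

local instance instNeZeroPow' (k : ℕ) : NeZero (p ^ k) :=
  ⟨pow_ne_zero _ (Fact.out (p := p.Prime)).ne_zero⟩

set_option maxHeartbeats 800000 in
-- matrices over torsion of the Jacobian
/-- `(F² - q²)(F² - 1) t = 0` on the Tate module, for a Hecke operator `t` killed at level `N`. -/
theorem tateRho_quartic (hqN : ¬ q ∣ N) (hqp : q ≠ p) (hpS : p ∈ S)
    {h : MvPolynomial (GoodPrime N q S) ℤ} (hh : evalLow N q S h = 0)
    {A : ValuationSubring (AlgebraicClosure ℚ)} (hA : A.LiesOverPrime q) {σ : GalQ}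
    (hσ : A.IsFrobeniusAt σ q) :
    (tateRho (N * q) p σ * tateRho (N * q) p σ
        - (q : Matrix (Fin (homRank (N * q))) (Fin (homRank (N * q))) ℤ_[p]) ^ 2) *
      (tateRho (N * q) p σ * tateRho (N * q) p σ - 1) *
      (heckeMat (N * q) (evalHigh N q S h)).map (Int.cast : ℤ → ℤ_[p]) = 0 := by
  refine matrix_ext_of_toZModPow fun k => ?_
  let π : Matrix (Fin (homRank (N * q))) (Fin (homRank (N * q))) ℤ_[p] →+* _ :=
    (PadicInt.toZModPow (p := p) k).mapMatrix
  show π _ = π 0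
  simp only [map_mul, map_sub, map_one, map_zero, map_pow, map_natCast]
  simp only [π, RingHom.mapMatrix_apply, map_tateRho, map_intCast_toZModPow]
  refine matrix_ext_torsCoord fun x => ?_
  obtain ⟨y, hy⟩ := (torsCoord (N * q) (p ^ k)).surjective
    ((heckeMat (N * q) (evalHigh N q S h)).map (Int.cast : ℤ → ZMod (p ^ k)) *ᵥ
      torsCoord (N * q) (p ^ k) x)
  obtain ⟨hα, hβ⟩ := push_eq_zero hh hpS hy.symm
  set G := galMat (N * q) (p ^ k) σ
  set r := JZero.torsionGaloisRep (N * q) (p ^ k) σ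
  have hG : ∀ z, (G * G) *ᵥ torsCoord (N * q) (p ^ k) z =
      torsCoord (N * q) (p ^ k) (r (r z)) := fun z => by
    rw [← Matrix.mulVec_mulVec, galMat_mulVec, galMat_mulVec]
  have hz : r (r (r (r y) - y)) = (q ^ 2) • (r (r y) - y) := by
    refine Subtype.ext ?_
    have h4 := frob_quartic_JZero N q hqN hA hσ (not_dvd_pow_of_ne p Fact.out hqp k)
      (nsmul_jTors (N * q) y) hα hβ
    simp only [r, AddSubgroup.coe_sub, AddSubmonoidClass.coe_nsmul,
      JZero.coe_torsionGaloisRep_apply]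
    exact h4
  have hD : (G * G - 1) *ᵥ torsCoord (N * q) (p ^ k) y =
      torsCoord (N * q) (p ^ k) (r (r y) - y) := by
    rw [Matrix.sub_mulVec, Matrix.one_mulVec, hG]
    exact (map_sub (torsCoord (N * q) (p ^ k)) _ _).symm
  rw [Matrix.zero_mulVec, ← Matrix.mulVec_mulVec, ← hy, ← Matrix.mulVec_mulVec, hD,
    Matrix.sub_mulVec, hG, hz, map_nsmul (torsCoord (N * q) (p ^ k)), ← Nat.cast_pow,
    Matrix.natCast_mulVec, sub_eq_zero]
  ext i
  simp

end Relation

section Plane

variable {M : ℕ} [NeZero M] {p : ℕ} [Fact p.Prime]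
variable {O : Type} [CommRing O] [IsDomain O] [IsDiscreteValuationRing O]
  [IsAdicComplete (IsLocalRing.maximalIdeal O) O] [CharZero O]

/-- The eigenplane of a character of the full Hecke algebra, with the relations it inherits from
the Tate module. -/
theorem exists_plane (hp : (p : O) ∈ IsLocalRing.maximalIdeal O) (χ : FullHecke M →+* O) :
    ∃ P : GaloisRepAdic O,
      (∀ (ℓ : ℕ) (hℓ : ℓ.Prime) (hℓM : ¬ ℓ ∣ M), ℓ ≠ p →
        ∀ A : ValuationSubring (AlgebraicClosure ℚ), A.LiesOverPrime ℓ →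
          ∀ σ : GalQ, A.IsFrobeniusAt σ ℓ →
            LinearMap.charpoly (P.ρ σ) =
              X ^ 2 - C (χ (CuspForm.heckeAlgebra.T hℓ hℓM (Set.notMem_empty ℓ))) * X
                + C (ℓ : O)) ∧
      (∀ σ : GalQ, LinearMap.det (P.ρ σ) = padicIntToRing O hp (cycloPadic p σ)) ∧
      ∀ (σ : GalQ) (m : ℕ) (t : FullHecke M), χ t ≠ 0 →
        (tateRho M p σ * tateRho M p σ
            - (m : Matrix (Fin (homRank M)) (Fin (homRank M)) ℤ_[p]) ^ 2) *
          (tateRho M p σ * tateRho M p σ - 1) *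
          (heckeMat M t).map (Int.cast : ℤ → ℤ_[p]) = 0 →
        (P.ρ σ * P.ρ σ - (m : Module.End O P.V) ^ 2) * (P.ρ σ * P.ρ σ - 1) = 0 := by
  letI : Algebra ℤ_[p] O := padicIntAlgebra O hp
  let D : TateData M p := tateData M p
  have hcomm : ∀ (σ : GalQ) (t : FullHecke M),
      ((D.hecke t).map (Int.cast : ℤ → O)) * (D.rho σ).map (algebraMap ℤ_[p] O) =
        (D.rho σ).map (algebraMap ℤ_[p] O) * ((D.hecke t).map (Int.cast : ℤ → O)) := fun σ t => by
    have h := congrArg (fun B => B.map (algebraMap ℤ_[p] O)) (D.commute σ t).eq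
    simp only [Matrix.map_mul, map_intCast_map] at h
    exact h.symm
  set W : Submodule O (Fin D.r → O) := matEigenspace (fun t => D.hecke t) (fun t => χ t) with hWdef
  have hW : ∀ σ, ∀ x ∈ W, matrixRep O D.rho σ x ∈ W := by
    intro σ x hx t
    rw [matrixRep_apply, Matrix.mulVec_mulVec, hcomm σ t, ← Matrix.mulVec_mulVec, hx t,
      Matrix.mulVec_smul]
  have hrank : Module.finrank O W = 2 := by
    rw [hWdef, finrank_matEigenspace (fun t => D.hecke t) (FractionRing O)]
    exact D.plane (FractionRing O) ((algebraMap O (FractionRing O)).comp χ)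
  set P := FLTA.RepTheory.galoisRepAdicOfSubmodule (matrixRep O D.rho)
    (matrixRep_isAdicContinuous O hp D.rho D.isContinuous) W hW hrank with hP
  have hquad : ∀ (ℓ : ℕ) (hℓ : ℓ.Prime) (hℓM : ¬ ℓ ∣ M), ℓ ≠ p →
      ∀ A : ValuationSubring (AlgebraicClosure ℚ), A.LiesOverPrime ℓ →
        ∀ σ : GalQ, A.IsFrobeniusAt σ ℓ → ∀ v : P.V,
          P.ρ σ (P.ρ σ v)
            - χ (CuspForm.heckeAlgebra.T hℓ hℓM (Set.notMem_empty ℓ)) • P.ρ σ v
            + (ℓ : O) • v = 0 := by
    intro ℓ hℓ hℓM hℓp A hA σ hσ v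
    change ↥W at v
    refine Subtype.ext ?_
    have h := congrArg (fun B => (B.map (algebraMap ℤ_[p] O)) *ᵥ (v : Fin D.r → O))
      (D.frobenius ℓ hℓ hℓM hℓp A hA σ hσ)
    simp only [Matrix.map_add _ (map_add _), Matrix.map_sub _ (map_sub _), Matrix.map_mul,
      map_intCast_map, Matrix.map_natCast (map_zero (algebraMap ℤ_[p] O)), map_natCast,
      Matrix.map_zero _ (map_zero _), Matrix.add_mulVec, Matrix.sub_mulVec,
      ← Matrix.mulVec_mulVec, Matrix.zero_mulVec] at h
    have hT := hW σ _ v.2 (CuspForm.heckeAlgebra.T hℓ hℓM (Set.notMem_empty ℓ))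
    rw [matrixRep_apply] at hT
    rw [hT, Matrix.diagonal_const_mulVec] at h
    exact h
  have hns : ∀ a : O, P.ρ complexConjugation ≠ a • (1 : Module.End O P.V) := by
    intro a ha
    obtain ⟨w, hw, hne⟩ := D.conj_not_scalar (FractionRing O)
      ((algebraMap O (FractionRing O)).comp χ) (algebraMap O (FractionRing O) a)
    refine hne ?_
    have hw' : w ∈ Submodule.span (FractionRing O)
        (piAlgebraMap (FractionRing O) '' (W : Set (Fin D.r → O))) := by
      rw [hWdef, span_image_matEigenspace]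
      exact hw
    refine Submodule.span_induction ?_ ?_ ?_ ?_ hw'
    · rintro _ ⟨v, hv, rfl⟩
      have h := congrArg Subtype.val (LinearMap.congr_fun ha ⟨v, hv⟩)
      change matrixRep O D.rho complexConjugation v = a • v at h
      rw [matrixRep_apply, D.conj_spec, map_intCast_map] at h
      have h' := compAlgebraMap_mulVec (O := O) (FractionRing O) D.conjMat v
      rw [h] at h'
      refine h'.trans (funext fun i => ?_)
      simp [piAlgebraMap_apply]
    · rw [Matrix.mulVec_zero, smul_zero]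
    · intro x y _ _ hx hy
      rw [Matrix.mulVec_add, hx, hy, smul_add]
    · intro c x _ hx
      rw [Matrix.mulVec_smul, hx, smul_comm]
  let a : ℕ → O := fun ℓ =>
    if h : ℓ.Prime ∧ ¬ ℓ ∣ M then χ (CuspForm.heckeAlgebra.T h.1 h.2 (Set.notMem_empty ℓ)) else 0
  let S : Finset ℕ := insert p M.primeFactors
  have hS : ∀ ℓ : ℕ, ℓ.Prime → (ℓ ∉ S ↔ ¬ ℓ ∣ M ∧ ℓ ≠ p) := fun ℓ hℓ => by
    simp [S, Nat.mem_primeFactors, hℓ, NeZero.ne M, and_comm]
  have ha : ∀ (ℓ : ℕ) (hℓ : ℓ.Prime) (hℓM : ¬ ℓ ∣ M),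
      a ℓ = χ (CuspForm.heckeAlgebra.T hℓ hℓM (Set.notMem_empty ℓ)) := fun ℓ hℓ hℓM =>
    dif_pos ⟨hℓ, hℓM⟩
  obtain ⟨hdet, hcp⟩ := det_eq_cyclo_and_charpoly hp P S (Finset.mem_insert_self _ _) a
    (fun ℓ hℓ hℓS A hA σ hσ v => by
      obtain ⟨h1, h2⟩ := (hS ℓ hℓ).mp hℓS
      rw [ha ℓ hℓ h1]
      exact hquad ℓ hℓ h1 h2 A hA σ hσ v)
    ⟨complexConjugation, hns⟩
  refine ⟨P, fun ℓ hℓ hℓM hℓp A hA σ hσ => ?_, hdet, fun σ m t ht hrel => ?_⟩
  · rw [hcp ℓ hℓ ((hS ℓ hℓ).mpr ⟨hℓM, hℓp⟩) A hA σ hσ, ha ℓ hℓ hℓM]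
  refine LinearMap.ext fun v => ?_
  rw [← Nat.cast_pow]
  simp only [Module.End.mul_apply, LinearMap.sub_apply, Module.End.one_apply,
    Module.End.natCast_apply]
  change ↥W at v
  refine Subtype.ext ?_
  let w : Fin (homRank M) → O := v.1
  have h := congrArg (fun B => (B.map (algebraMap ℤ_[p] O)) *ᵥ w) hrel
  have hT : (heckeMat M t).map (Int.cast : ℤ → O) *ᵥ w = χ t • w := v.2 t
  simp only [Matrix.map_mul, Matrix.map_sub _ (map_sub _),
    Matrix.map_one _ (map_zero (algebraMap ℤ_[p] O)) (map_one _), map_intCast_map,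
    ← Nat.cast_pow, Matrix.map_natCast (map_zero (algebraMap ℤ_[p] O)), map_natCast,
    Matrix.map_zero _ (map_zero _), ← Matrix.mulVec_mulVec, hT, Matrix.mulVec_smul,
    Matrix.zero_mulVec] at h
  have h' := (smul_eq_zero.mp h).resolve_left ht
  simp only [Matrix.sub_mulVec, Matrix.one_mulVec, ← Matrix.mulVec_mulVec,
    Matrix.diagonal_const_mulVec] at h'
  simp only [Nat.cast_smul_eq_nsmul] at h'
  exact h'

end Plane

theorem evalHigh_mem {N q : ℕ} [NeZero N] [NeZero q] {S : Finset ℕ}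
    (h : MvPolynomial (GoodPrime N q S) ℤ) :
    ((evalHigh N q S h : FullHecke (N * q)) : Module.End ℂ
        (CuspForm (CongruenceSubgroup.Gamma0 (N * q)) 2)) ∈
      CuspForm.heckeAlgebra (N * q) 2 (↑S : Set ℕ) := by
  induction h using MvPolynomial.induction_on with
  | C c =>
    simp only [evalHigh, eq_intCast, map_intCast, SubringClass.coe_intCast]
    exact intCast_mem _ c
  | add f g hf hg =>
    rw [map_add, AddMemClass.coe_add]
    exact add_mem hf hg
  | mul_X f ℓ hf =>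
    rw [map_mul, MulMemClass.coe_mul]
    refine mul_mem hf ?_
    simpa [evalHigh] using
      (CuspForm.heckeAlgebra.T ℓ.1.2 ℓ.2.1
        (fun h => ℓ.2.2 (Finset.mem_coe.mp h)) : CuspForm.heckeAlgebra (N * q) 2 (↑S : Set ℕ)).2

/-- Frobenius at a prime exactly dividing the level, on the eigenplane of a character new
there. -/
theorem frobenius_at_new {M p : ℕ} [NeZero M] [Fact p.Prime]
    {g : CuspForm (CongruenceSubgroup.Gamma0 M) 2} (hg : g.IsNewform) {q : ℕ} (hq : q.Prime)
    (hqM : q ∣ M) (hq2 : ¬ q ^ 2 ∣ M) (hqp : q ≠ p) {S : Finset ℕ} (hpS : p ∈ S)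
    {O : Type} [CommRing O] [IsDomain O] [IsDiscreteValuationRing O]
    [IsAdicComplete (IsLocalRing.maximalIdeal O) O] [CharZero O]
    (hp : (p : O) ∈ IsLocalRing.maximalIdeal O) (χ : FullHecke M →+* O)
    (hχ : ∀ t : FullHecke M,
      (t : Module.End ℂ (CuspForm (CongruenceSubgroup.Gamma0 M) 2)) ∈
        CuspForm.heckeAlgebra M 2 (↑S : Set ℕ) →
      eigenCharC (S := (∅ : Set ℕ)) hg.1 t ≠ 0 → χ t ≠ 0)
    (P : GaloisRepAdic O)
    (hdet : ∀ σ : GalQ, LinearMap.det (P.ρ σ) = padicIntToRing O hp (cycloPadic p σ))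
    (hrel : ∀ (σ : GalQ) (m : ℕ) (t : FullHecke M), χ t ≠ 0 →
        (tateRho M p σ * tateRho M p σ
            - (m : Matrix (Fin (homRank M)) (Fin (homRank M)) ℤ_[p]) ^ 2) *
          (tateRho M p σ * tateRho M p σ - 1) *
          (heckeMat M t).map (Int.cast : ℤ → ℤ_[p]) = 0 →
        (P.ρ σ * P.ρ σ - (m : Module.End O P.V) ^ 2) * (P.ρ σ * P.ρ σ - 1) = 0)
    {A : ValuationSubring (AlgebraicClosure ℚ)} (hA : A.LiesOverPrime q) {σ : GalQ}
    (hσ : A.IsFrobeniusAt σ q) :
    LinearMap.charpoly (P.ρ σ) = X ^ 2 - C ((q : O) + 1) * X + C (q : O) ∨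
      LinearMap.charpoly (P.ρ σ) = X ^ 2 + C ((q : O) + 1) * X + C (q : O) := by
  obtain ⟨N, rfl⟩ := exists_eq_mul_left_of_dvd hqM
  have : NeZero N := ⟨left_ne_zero_of_mul (NeZero.ne (N * q))⟩
  have : NeZero q := ⟨hq.ne_zero⟩
  have : Fact q.Prime := ⟨hq⟩
  have hqN : ¬ q ∣ N := fun h => hq2 (by rw [pow_two]; exact Nat.mul_dvd_mul_right h q)
  have hne : N ≠ N * q := fun h => hq.ne_one
    (mul_left_cancel₀ (NeZero.ne N) (h.symm.trans (mul_one N).symm))
  obtain ⟨h, hh, hne0⟩ := exists_poly_separating hg hne S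
  refine charpoly_eq_or P.finrank_eq _ (P.ρ σ⁻¹) (by rw [← map_mul, mul_inv_cancel, map_one]) q ?_
    (hrel σ q _ (hχ _ (evalHigh_mem h) hne0) (tateRho_quartic hqN hqp hpS hh hA hσ))
  rw [hdet, show cycloPadic p σ = (q : ℤ_[p]) from
    FLTA.Galois.cyclotomicCharacter_frobenius p hq hqp hA hσ, map_natCast]

end FLTA.BadRed

end
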