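import Fermat.Agent.BadRed.Galois
import Fermat.Agent.GaloisReps.TateData
import Mathlib.NumberTheory.Padics.RingHoms

/-!
# Inertia at `q ∥ M` is unipotent on the Tate module of `J₀(M)`
-/

set_option autoImplicit false

noncomputable section

open ModularCurve Matrix

namespace FLTA.BadRed

open FLTA.GaloisReps

local notation "Γ" => AlgebraicClosure ℚ ≃ₐ[ℚ] AlgebraicClosure ℚ

theorem mapMatrix_mul_mulVec {R S : Type*} [CommRing R] [CommRing S] {r : ℕ} (f : R →+* S)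
    (X Y : Matrix (Fin r) (Fin r) R) (v : Fin r → S) :
    f.mapMatrix (X * Y) *ᵥ v = f.mapMatrix X *ᵥ (f.mapMatrix Y *ᵥ v) := by
  rw [map_mul, Matrix.mulVec_mulVec]

variable {M p : ℕ} [NeZero M] [Fact p.Prime] (D : TateData M p)

/-- The torsion points through integral vectors. -/
theorem torsionEquiv_mulVec (k : ℕ) (σ : Γ) (v : Fin D.r → ZMod (p ^ k)) :
    ((D.torsionEquiv k ((PadicInt.toZModPow k).mapMatrix (D.rho σ) *ᵥ v)) : JZero M) =
      σ • (D.torsionEquiv k v : JZero M) :=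
  D.torsionEquiv_galois k σ v

/-- A matrix that kills all torsion points is zero. -/
theorem eq_zero_of_torsion (X : Matrix (Fin D.r) (Fin D.r) ℤ_[p])
    (h : ∀ (k : ℕ) (v : Fin D.r → ZMod (p ^ k)),
      (D.torsionEquiv k ((PadicInt.toZModPow k).mapMatrix X *ᵥ v) : JZero M) = 0) : X = 0 := by
  classical
  ext i j
  refine PadicInt.ext_of_toZModPow.mp fun k => ?_
  have h1 : (PadicInt.toZModPow k).mapMatrix X *ᵥ (Pi.single j 1) = 0 :=
    (D.torsionEquiv k).injective (Subtype.ext ((h k _).trans (by rw [map_zero]; rfl)))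
  have h2 := congrFun h1 i
  rw [Matrix.mulVec_single_one] at h2
  rw [Matrix.zero_apply, map_zero]
  exact h2

/-- Torsion points are killed by the prime power. -/
theorem nsmul_torsionEquiv (k : ℕ) (v : Fin D.r → ZMod (p ^ k)) :
    (p ^ k) • (D.torsionEquiv k v : JZero M) = 0 := by
  have h := (Submodule.mem_torsionBy_iff _ _).mp (D.torsionEquiv k v).2
  rw [← natCast_zsmul, Nat.cast_pow]
  exact h

/-- `(ρ τ - 1) (ρ σ - 1) = 0` for inertia elements at `q ∥ M`, `q ≠ p`. -/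
theorem tateData_inertia_unipotent {q : ℕ} (hq : q.Prime) (hqp : q ≠ p) (hqM : q ∣ M)
    (hq2 : ¬ q ^ 2 ∣ M) {A : ValuationSubring (AlgebraicClosure ℚ)} (hA : A.LiesOverPrime q)
    {σ τ : Γ} (hσ : σ ∈ A.inertiaSubgroupIn ℚ) (hτ : τ ∈ A.inertiaSubgroupIn ℚ) :
    (D.rho τ - 1) * (D.rho σ - 1) = 0 := by
  obtain ⟨N, rfl⟩ : ∃ N, M = N * q := by
    obtain ⟨N, hN⟩ := hqM
    exact ⟨N, hN.trans (mul_comm q N)⟩
  haveI : NeZero N := ⟨fun h => NeZero.ne (N * q) (by rw [h, zero_mul])⟩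
  haveI : NeZero q := ⟨hq.ne_zero⟩
  haveI : Fact q.Prime := ⟨hq⟩
  have hqN : ¬ q ∣ N := fun h => hq2 (by rw [pow_two]; exact mul_dvd_mul_right h q)
  refine eq_zero_of_torsion D _ fun k v => ?_
  have hpk : ¬ q ∣ p ^ k := fun h =>
    hqp ((Nat.prime_dvd_prime_iff_eq hq Fact.out).mp (hq.dvd_of_dvd_pow h))
  have key : ∀ (γ : Γ) (w : Fin D.r → ZMod (p ^ k)),
      (D.torsionEquiv k ((PadicInt.toZModPow k).mapMatrix (D.rho γ - 1) *ᵥ w) : JZero (N * q)) =
        γ • (D.torsionEquiv k w : JZero (N * q)) - (D.torsionEquiv k w : JZero (N * q)) := by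
    intro γ w
    rw [map_sub, map_one, Matrix.sub_mulVec, Matrix.one_mulVec, map_sub, Submodule.coe_sub,
      torsionEquiv_mulVec]
  have e2 := inertia_unipotent_JZero N q hqN hA hσ hτ hpk (nsmul_torsionEquiv D k v)
  have e1 := key τ ((PadicInt.toZModPow k).mapMatrix (D.rho σ - 1) *ᵥ v)
  rw [key σ v] at e1
  rw [mapMatrix_mul_mulVec]
  exact e1.trans (sub_eq_zero.mpr e2)

end FLTA.BadRed

end
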